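import Fermat.Agent.LT.T7.H298.MatchQSpec
import Fermat.Agent.LT.T7.H787.TorMeas

/-!
# Row LT, tower T7, leaf T7.L2Q.1.H1.3 `MQ298.TorMeasQC298` (row 2603) -- helper776, OFF-MAIN

`torMeasQC776 F : MQ298.TorMeasQC298 F`, VERBATIM vs `LT/T7/H298/MatchQSpec.lean` (helper298,
sha256 53f6570a), UNCONDITIONAL.  The proof of helper787 (`LT/T7/H787/TorMeas.lean`,
`torMeasC787`, byte-identical copy) for `K = ℚ`, `K' = F`: it does not use the hypotheses
`IsCycExt`, `TotCplx`.  No hole, nothing assumed.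
-/

set_option autoImplicit false
set_option linter.unusedVariables false
set_option linter.style.haveILetI false

open AutomorphicForm IsDedekindDomain NumberField MeasureTheory

noncomputable section

namespace Fermat.Agent.LT.T7.H776Q

open Fermat.Agent.LT.H556 Fermat.Agent.LT.H556.A0 Fermat.Agent.LT.T7 Fermat.Agent.LT.T7.H305
open Fermat.Agent.LT Fermat.Agent.LT.T7.H787

attribute [local instance] Fermat.Agent.LT.T5.instMeasurableSpaceG

/-- **LEAF Q2.5b = TOR-MEAS over `ℚ`** (`MQ298.TorMeasQC298`). -/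
theorem torMeasQC776 (F : Type) [Field F] [NumberField F] : MQ298.TorMeasQC298 F := by
  intro _hF D hD _hcyc _hl ι hι δ γ hγ hN
  have H : TorSetup787 D ι δ γ := ⟨hD, hι, hγ, hN⟩
  haveI : LocallyCompactSpace (G ℚ) :=
    Fermat.Agent.LT.H11.LC.locallyCompactSpace_GL2_adeleRing_h11 ℚ
  haveI : T2Space (G ℚ) := Fermat.Agent.LT.H11.LC.t2Space_GL2_adeleRing_h11 ℚ
  haveI : T2Space (G F) := Fermat.Agent.LT.H11.LC.t2Space_GL2_adeleRing_h11 F
  have hclosed := isClosed_tA_id787 γ
  haveI : LocallyCompactSpace (tA305 (T5.AdelicAut.id ℚ) γ) :=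
    (Topology.IsClosedEmbedding.mk Topology.IsEmbedding.subtypeVal
      (by rw [Subtype.range_coe]; exact hclosed)).locallyCompactSpace
  letI mH : MeasurableSpace (tA305 (T5.AdelicAut.id ℚ) γ) := borel _
  haveI : BorelSpace (tA305 (T5.AdelicAut.id ℚ) γ) := ⟨rfl⟩
  letI mH' : MeasurableSpace (tA305 D.s δ) := borel _
  haveI : BorelSpace (tA305 D.s δ) := ⟨rfl⟩
  haveI : BorelSpace (G F) := ⟨rfl⟩
  let μT : Measure (tA305 (T5.AdelicAut.id ℚ) γ) := Measure.haar
  have hmeas : Measurable H.torHom := H.continuous_torHom.measurable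
  refine ⟨μT, Measure.map H.torHom μT, inferInstance, ?_, ?_⟩
  · exact Measure.isHaarMeasure_map μT H.torHom H.continuous_torHom H.torHom_surjective
      H.isClosedEmbedding_torHom.tendsto_cocompact
  · intro A hA
    have hval : Measurable (Subtype.val : tA305 D.s δ → G F) :=
      continuous_subtype_val.measurable
    have hS : MeasurableSet {t : tA305 D.s δ | (t : G F) ∈ A} := hval hA
    rw [Measure.map_apply hmeas hS]
    rfl

end Fermat.Agent.LT.T7.H776Q

end
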