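import Mathlib

/-!
# Row LT, tower T7, NODE T7.L2.3.5.4 `SD534.WBasisC` (row 2182, helper776): ABSTRACT LEAVES

OFF-MAIN.  MATHLIB ONLY.  Frozen Props, no hole, nothing assumed.  ADDITIVE.

`M` a complex vector space, `form` a positive definite hermitian form on the subspace `Vm`
(linear in the FIRST variable), `u` an orthonormal sequence with index set `J`, classes `cl`.

* `AbsExhaustC776` : finite classes + exhaustion from Parseval, orthogonality of the classes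
  and finite dimension of the classes.
* `ProjSeqC776` : from an orthonormal sequence `u` (complete for the subspace `Wm`, finite
  classes) and a linear map `P` which maps the members into `Wm` and into their class spaces,
  fixes `Wm` and satisfies `form χ (P (u j)) = form χ (u j)` for `χ ∈ Wm`, to an orthonormal
  sequence `w` of members of `Wm` which is complete for `Wm`, with `w j` in the span of the
  `P (u i)`, `cl i = cl j`, and which exhausts `Wm ⊓ (class space)`.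
-/

set_option autoImplicit false

open scoped ComplexConjugate

noncomputable section

namespace Fermat.Agent.LT.T7.WB776

/-- **LEAF WB.A4 = ABS-EXHAUST (MATHLIB ONLY).**
`Cls a x` = "`x` is a member of the class `a`" (NOT assumed to be closed under `+`).
Hypotheses, for the classes `a = cl j₀`, `j₀ ∈ J`, only: the members of the class lie in `Vm`
and in a finite dimensional subspace, Parseval holds for them, and they are orthogonal to the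
members `u j` of the other classes.
Conclusion: the classes of indices are finite and every member of the class `cl j₀` lies in the
span of the `u j`, `j ∈ J`, `cl j = cl j₀`.
Proof: the `u j` of one class are orthonormal, hence linearly independent, in a finite
dimensional space: finitely many.  For `x` in the class: Parseval and orthogonality give
`‖x‖² = ∑_{cl j = cl j₀} |⟨x, u j⟩|²` (finite sum), so `y = x - ∑ ⟨x, u j⟩ u j` has
`⟨y, y⟩ = 0`, `y ∈ Vm`, `y = 0`. -/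
def AbsExhaustC776 : Prop :=
  ∀ (M : Type) [AddCommGroup M] [Module ℂ M] (form : M → M → ℂ) (Vm : Submodule ℂ M)
    (A : Type) (u : ℕ → M) (J : Set ℕ) (cl : ℕ → A) (Cls : A → M → Prop),
    (∀ x ∈ Vm, ∀ y ∈ Vm, ∀ z ∈ Vm, form (x + y) z = form x z + form y z) →
    (∀ (a : ℂ), ∀ x ∈ Vm, ∀ y ∈ Vm, form (a • x) y = a * form x y) →
    (∀ x ∈ Vm, ∀ y ∈ Vm, form y x = conj (form x y)) →
    (∀ x ∈ Vm, 0 ≤ (form x x).re) →
    (∀ x ∈ Vm, form x x = 0 → x = 0) →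
    (∀ j₀ ∈ J, ∀ x : M, Cls (cl j₀) x → x ∈ Vm) →
    (∀ j₀ ∈ J, ∃ W : Submodule ℂ M, Module.Finite ℂ W ∧ ∀ x : M, Cls (cl j₀) x → x ∈ W) →
    (∀ j ∈ J, Cls (cl j) (u j)) →
    (∀ j ∈ J, form (u j) (u j) = 1) →
    (∀ i ∈ J, ∀ j ∈ J, i ≠ j → form (u i) (u j) = 0) →
    (∀ j₀ ∈ J, ∀ x : M, Cls (cl j₀) x →
      HasSum (fun j : J => ‖form x (u j)‖ ^ 2) (form x x).re) →
    (∀ j₀ ∈ J, ∀ x : M, Cls (cl j₀) x → ∀ j ∈ J, cl j ≠ cl j₀ → form x (u j) = 0) →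
    (∀ j₀ ∈ J, {j : ℕ | j ∈ J ∧ cl j = cl j₀}.Finite) ∧
      ∀ j₀ ∈ J, ∀ x : M, Cls (cl j₀) x →
        x ∈ Submodule.span ℂ {f : M | ∃ j : ℕ, j ∈ J ∧ cl j = cl j₀ ∧ f = u j}

/-- **LEAF WB.C1 = PROJ-SEQ (MATHLIB ONLY).**
Proof: for a class `a` let `E a = span {u j : cl j = a}` (finite dimensional, orthonormal basis
`u j`) and `F a = span {P (u j) : cl j = a} ⊆ Wm ⊓ E a`; for `x ∈ Wm ⊓ E a`: `x = P x ∈ F a`, so
`F a = Wm ⊓ E a`.  Gram--Schmidt in `F a`: an orthonormal basis `w j`, `j ∈ J' a ⊆ J a`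
(`dim F a ≤ |J a|`); `J = ⋃ J' a`.  Different classes are orthogonal (`F a ⊆ E a`).
Parseval: for `χ ∈ Wm` the component `x = ∑_{cl j = a} ⟨χ, u j⟩ u j` of `χ` in `E a` lies in
`Wm`: `P x ∈ Wm ⊓ E a` and `⟨P x, u i⟩ = ⟨x, u i⟩` for `cl i = a`
(`⟨P u j, u i⟩ = ⟨P u j, P u i⟩ = ⟨u j, P u i⟩` by the last hypothesis and the symmetry,
`⟨x, P u i⟩ = ⟨χ, P u i⟩ = ⟨χ, u i⟩`), so `P x = x`.  Hence
`∑_{cl j = a} |⟨χ, u j⟩|² = ‖x‖² = ∑_{j ∈ J' a} |⟨x, w j⟩|² = ∑_{j ∈ J' a} |⟨χ, w j⟩|²`;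
regroup the two sums class by class (finite classes, nonnegative terms). -/
def ProjSeqC776 : Prop :=
  ∀ (M : Type) [AddCommGroup M] [Module ℂ M] (form : M → M → ℂ) (Vm Wm : Submodule ℂ M)
    (A : Type) (u : ℕ → M) (J₀ : Set ℕ) (cl : ℕ → A) (P : M →ₗ[ℂ] M),
    Wm ≤ Vm →
    (∀ x ∈ Vm, ∀ y ∈ Vm, ∀ z ∈ Vm, form (x + y) z = form x z + form y z) →
    (∀ (a : ℂ), ∀ x ∈ Vm, ∀ y ∈ Vm, form (a • x) y = a * form x y) →
    (∀ x ∈ Vm, ∀ y ∈ Vm, form y x = conj (form x y)) →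
    (∀ x ∈ Vm, 0 ≤ (form x x).re) →
    (∀ x ∈ Vm, form x x = 0 → x = 0) →
    (∀ j ∈ J₀, u j ∈ Vm) →
    (∀ j ∈ J₀, form (u j) (u j) = 1) →
    (∀ i ∈ J₀, ∀ j ∈ J₀, i ≠ j → form (u i) (u j) = 0) →
    (∀ χ ∈ Wm, HasSum (fun j : J₀ => ‖form χ (u j)‖ ^ 2) (form χ χ).re) →
    (∀ j₀ ∈ J₀, {j : ℕ | j ∈ J₀ ∧ cl j = cl j₀}.Finite) →
    (∀ j ∈ J₀, P (u j) ∈ Wm) →
    (∀ j ∈ J₀, P (u j) ∈ Submodule.span ℂ {f : M | ∃ i : ℕ, i ∈ J₀ ∧ cl i = cl j ∧ f = u i}) →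
    (∀ χ ∈ Wm, P χ = χ) →
    (∀ χ ∈ Wm, ∀ j ∈ J₀, form χ (P (u j)) = form χ (u j)) →
    ∃ (w : ℕ → M) (J : Set ℕ), J ⊆ J₀ ∧
      (∀ j ∈ J, w j ∈
        Submodule.span ℂ {f : M | ∃ i : ℕ, i ∈ J₀ ∧ cl i = cl j ∧ f = P (u i)}) ∧
      (∀ j ∈ J, form (w j) (w j) = 1) ∧
      (∀ i ∈ J, ∀ j ∈ J, i ≠ j → form (w i) (w j) = 0) ∧
      (∀ χ ∈ Wm, HasSum (fun j : J => ‖form χ (w j)‖ ^ 2) (form χ χ).re) ∧
      ∀ j₀ ∈ J₀, ∀ x ∈ Wm,
        x ∈ Submodule.span ℂ {f : M | ∃ i : ℕ, i ∈ J₀ ∧ cl i = cl j₀ ∧ f = u i} →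
        x ∈ Submodule.span ℂ {f : M | ∃ j : ℕ, j ∈ J ∧ cl j = cl j₀ ∧ f = w j}

end Fermat.Agent.LT.T7.WB776

end
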