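import Mathlib
import Fermat.Agent.LT.T7.H534.DownBasisSpec
import Fermat.Agent.LT.T7.H193.ProjSpec
import Fermat.Agent.LT.T7.H776.AbsSpec

/-!
# Row LT, tower T7, NODE T7.L2.3.5.4 `SD534.WBasisC` (row 2182) -- THE CUT (helper776)

OFF-MAIN.  Definitions, frozen Props, PROVED top `wBasisC_of776`.  No hole, nothing assumed.
ADDITIVE (new names only, suffix `776`).  Vocabulary (byte-identical copies):
`LT/T7/H534/DownBasisSpec.lean` (helper534, sha256 b2d5929f), `LT/T7/H193/ProjSpec.lean`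
(helper193, sha256 977a85e3: `IsIwElt`, `finAvg`, `IsFinData`, `FinDataC`, `FinAvgCuspC`,
`FinAvgOrthC`, `TranslInvC`), `LT/T7/Level2.lean` (15516646), `LT/T1/Spec.lean`.

    WBasisC K  ⟸  W0BasisC776 K + IwAvgC776 K + ProjSeqC776 + CuspFormC K + WSubC K   (WAsmC776)
    W0BasisC776 K  ⟸  W0RawC776 K + OrthClsC776 K + ClassFinC776 K + AbsExhaustC776
                        + CuspFormC K + WSubC K                                      (W0AsmC776)
    IwAvgC776 K  ⟸  T1Out K + FinDataC K + FinAvgCuspC K + FinAvgOrthC K + TranslInvC K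
                      + FinAvgPosC776 K + FinAvgHeckeC776 K + FinAvgMeanC776 K
                      + CuspFormC K + WSubC K                                        (IwAvgAsmC776)

## The leaves

LEVEL 0 (the class of T2: `IsWFn 𝔫 r 0 o` = cusp functions of `T2/Spec.lean`, helper130
`LT/T2/AdapterW.lean` `isWFn_zero_iff130`):
* `W0RawC776` (T2 ADAPTER, from `T2.wBasis0_130`): an orthonormal SEQUENCE of joint
  eigenfunctions of level `𝔫`, complete for the class of T2, with unitary NORMALISED eigen-data.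
* `OrthClsC776` (T2 ADAPTER, from `T2.OpsAdj`): two joint eigenfunctions whose eigen-data differ
  at a place prime to `𝔫` or at a positive radius are orthogonal.
* `ClassFinC776` (= `classFinGen429`, helper429, row 2282): the class of an eigen-datum lies in
  a finite dimensional space.
* `AbsExhaustC776` (MATHLIB ONLY, `AbsSpec.lean`).
* `W0AsmC776` (ASSEMBLY, T7 vocabulary only).

THE PROJECTOR `P = finAvg Rep`, `Rep` a system of representatives of `I_u U(𝔫) / U(𝔫)`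
(`H193.IsFinData 𝔫 𝔫 1 (fun _ => u) Rep`; existence, cusp functions, orthogonality: CLOSED
leaves of helper193's cut, owners helper543, 981, 454, 547, 387, 587, 144, 277, 453):
* `FinAvgPosC776`   : `finAvg` preserves the invariance under the positive scalars at infinity.
* `FinAvgHeckeC776` : `finAvg` preserves the Hecke eigenfunctions at EVERY finite place.
* `FinAvgMeanC776`  : `finAvg` preserves the eigenfunctions of the sphere means.
* `IwAvgAsmC776` (ASSEMBLY).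

THE NEW BASIS:
* `ProjSeqC776` (MATHLIB ONLY, `AbsSpec.lean`).
* `WAsmC776` (ASSEMBLY).
-/

set_option autoImplicit false
set_option linter.unusedSectionVars false
set_option linter.unusedVariables false

open AutomorphicForm IsDedekindDomain NumberField MeasureTheory
open scoped ComplexConjugate

noncomputable section

namespace Fermat.Agent.LT.T7.WB776

open Fermat.Agent.LT Fermat.Agent.LT.H556 Fermat.Agent.LT.H556.A0 Fermat.Agent.LT.T7
open Fermat.Agent.LT.T7.SD534 Fermat.Agent.LT.T7.H193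

attribute [local instance] Fermat.Agent.LT.T5.instMeasurableSpaceG

/-! ## 1. Vocabulary -/

section Defs

variable {K : Type} [Field K] [NumberField K]

/-- The eigen-datum `c` is NORMALISED for the level `𝔫`: `0` at the places dividing `𝔫` and at
the radii `d ≤ 0` (where `T7.IsEigFn` says nothing). -/
def IsNormData776 (𝔫 : Ideal (𝓞 K)) (c : EigData K) : Prop :=
  (∀ v : HeightOneSpectrum (𝓞 K), v.asIdeal ∣ 𝔫 → c.a v = 0 ∧ c.b v = 0) ∧
    ∀ (w : InfinitePlace K) (d : ℝ), d ≤ 0 → c.m w d = 0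

/-- The eigen-data `c`, `c'` differ at a place prime to `𝔫` or at a positive radius. -/
def DiffOut776 (𝔫 : Ideal (𝓞 K)) (c c' : EigData K) : Prop :=
  (∃ v : HeightOneSpectrum (𝓞 K), ¬ v.asIdeal ∣ 𝔫 ∧ (c.a v ≠ c'.a v ∨ c.b v ≠ c'.b v)) ∨
    ∃ (w : InfinitePlace K) (d : ℝ), 0 < d ∧ c.m w d ≠ c'.m w d

/-- The raw basis of level `0` (no Iwahori condition): an orthonormal sequence of joint
eigenfunctions of the class of T2, complete for this class, with unitary normalised data. -/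
structure IsW0Raw776 (μ : Measure (G K)) (F : Set (G K)) (r : G K) (𝔫 : Ideal (𝓞 K))
    (u : HeightOneSpectrum (𝓞 K)) (w₀ : ℕ → G K → ℂ) (J₀ : Set ℕ) (c₀ : ℕ → EigData K) :
    Prop where
  eig : ∀ j, j ∈ J₀ → IsEigFn 𝔫 r 0 (fun _ => u) (w₀ j) (c₀ j)
  unit : ∀ j, j ∈ J₀ → IsUnitOut 𝔫 (c₀ j)
  normal : ∀ j, j ∈ J₀ → IsNormData776 𝔫 (c₀ j)
  norm_one : ∀ j, j ∈ J₀ → T5.innerD μ F (w₀ j) (w₀ j) = 1
  orth : ∀ i, i ∈ J₀ → ∀ j, j ∈ J₀ → i ≠ j → T5.innerD μ F (w₀ i) (w₀ j) = 0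
  parseval : ∀ χ : G K → ℂ, IsWFn 𝔫 r 0 (fun _ => u) χ →
    HasSum (fun j : J₀ => ‖T5.innerD μ F χ (w₀ j)‖ ^ 2) (T5.innerD μ F χ χ).re

/-- The basis of level `0` with finite classes which exhaust the eigenfunctions. -/
structure IsW0Basis776 (μ : Measure (G K)) (F : Set (G K)) (r : G K) (𝔫 : Ideal (𝓞 K))
    (u : HeightOneSpectrum (𝓞 K)) (w₀ : ℕ → G K → ℂ) (J₀ : Set ℕ) (c₀ : ℕ → EigData K) :
    Prop where
  eig : ∀ j, j ∈ J₀ → IsEigFn 𝔫 r 0 (fun _ => u) (w₀ j) (c₀ j)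
  unit : ∀ j, j ∈ J₀ → IsUnitOut 𝔫 (c₀ j)
  norm_one : ∀ j, j ∈ J₀ → T5.innerD μ F (w₀ j) (w₀ j) = 1
  orth : ∀ i, i ∈ J₀ → ∀ j, j ∈ J₀ → i ≠ j → T5.innerD μ F (w₀ i) (w₀ j) = 0
  parseval : ∀ χ : G K → ℂ, IsWFn 𝔫 r 0 (fun _ => u) χ →
    HasSum (fun j : J₀ => ‖T5.innerD μ F χ (w₀ j)‖ ^ 2) (T5.innerD μ F χ χ).re
  finite : ∀ j₀, j₀ ∈ J₀ → {j : ℕ | j ∈ J₀ ∧ c₀ j = c₀ j₀}.Finite
  exhaust : ∀ j₀, j₀ ∈ J₀ → ∀ ψ : G K → ℂ, IsEigFn 𝔫 r 0 (fun _ => u) ψ (c₀ j₀) →
    ψ ∈ clsSpan w₀ J₀ c₀ (c₀ j₀)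

/-- The projector on the invariant cusp functions which respects the eigen-classes. -/
structure IsIwAvg776 (μ : Measure (G K)) (F : Set (G K)) (r : G K) (𝔫 : Ideal (𝓞 K))
    (u : HeightOneSpectrum (𝓞 K)) (P : (G K → ℂ) →ₗ[ℂ] (G K → ℂ)) : Prop where
  eig : ∀ (ψ : G K → ℂ) (c : EigData K), IsEigFn 𝔫 r 0 (fun _ => u) ψ c →
    InCls 𝔫 r u c (P ψ)
  fix : ∀ χ : G K → ℂ, InW 𝔫 r u χ → P χ = χ
  inner : ∀ χ ψ : G K → ℂ, InW 𝔫 r u χ → IsWFn 𝔫 r 0 (fun _ => u) ψ →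
    T5.innerD μ F χ (P ψ) = T5.innerD μ F χ ψ

/-! ### Proved tools -/

/-- An element which is trivial at every place is `1`. -/
theorem eq_one_of_triv776 {h : G K} (hI : ∀ w : InfinitePlace K, TrivAtInf w h)
    (hF : ∀ v : HeightOneSpectrum (𝓞 K), TrivAtFin v h) : h = 1 := by
  apply Units.ext
  ext i j
  refine Prod.ext ?_ ?_
  · funext w
    rw [hI w i j, Units.val_one, Matrix.one_apply, Matrix.one_apply]
    split_ifs <;> rfl
  · refine RestrictedProduct.ext _ _ fun v => ?_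
    have h1 : ((h : Matrix (Fin 2) (Fin 2) (Adl K)) i j).2 v
        = (1 : Matrix (Fin 2) (Fin 2) (v.adicCompletion K)) i j :=
      congrFun (congrFun (hF v) i) j
    refine h1.trans ?_
    show (1 : Matrix (Fin 2) (Fin 2) (v.adicCompletion K)) i j
      = (((1 : G K) : Matrix (Fin 2) (Fin 2) (Adl K)) i j).2 v
    rw [Units.val_one, Matrix.one_apply, Matrix.one_apply]
    split_ifs <;> rfl

/-- An invariant cusp function is a function of the class of level `0`. -/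
theorem isWFn_zero_of776 {𝔫 : Ideal (𝓞 K)} {r : G K} {l : ℕ}
    {o o' : ℕ → HeightOneSpectrum (𝓞 K)} {ψ : G K → ℂ} (h : IsWFn 𝔫 r l o ψ) :
    IsWFn 𝔫 r 0 o' ψ where
  cusp := h.cusp
  arch_scalar := h.arch_scalar
  iw := fun x hI hF _ g => by
    have hx : x = 1 :=
      eq_one_of_triv776 hI (fun v => hF v (fun j hj => absurd hj (Nat.not_lt_zero j)))
    rw [hx, mul_one]

/-- A joint eigenfunction of level `l` is a joint eigenfunction of level `0`. -/
theorem isEigFn_zero_of776 {𝔫 : Ideal (𝓞 K)} {r : G K} {l : ℕ}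
    {o o' : ℕ → HeightOneSpectrum (𝓞 K)} {ψ : G K → ℂ} {c : EigData K}
    (h : IsEigFn 𝔫 r l o ψ c) : IsEigFn 𝔫 r 0 o' ψ c where
  inv := isWFn_zero_of776 h.inv
  hecke := h.hecke
  mean := h.mean

/-- A joint eigenfunction of level `0` which is Iwahori invariant is a member of the class. -/
theorem inCls_of_zero776 {𝔫 : Ideal (𝓞 K)} {r : G K} {u : HeightOneSpectrum (𝓞 K)}
    {o' : ℕ → HeightOneSpectrum (𝓞 K)} {ψ : G K → ℂ} {c : EigData K}
    (h : IsEigFn 𝔫 r 0 o' ψ c) (hW : InW 𝔫 r u ψ) : InCls 𝔫 r u c ψ where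
  inv := hW
  hecke := h.hecke
  mean := h.mean

/-- Two normalised eigen-data which are different differ at a place prime to the level or at
a positive radius. -/
theorem diffOut_of_ne776 {𝔫 : Ideal (𝓞 K)} {c c' : EigData K} (hc : IsNormData776 𝔫 c)
    (hc' : IsNormData776 𝔫 c') (hne : c ≠ c') : DiffOut776 𝔫 c c' := by
  classical
  by_contra hno
  apply hne
  unfold DiffOut776 at hno
  push Not at hno
  obtain ⟨h1, h2⟩ := hno
  obtain ⟨a, b, m⟩ := c
  obtain ⟨a', b', m'⟩ := c'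
  have ha : a = a' := by
    funext v
    by_cases hv : v.asIdeal ∣ 𝔫
    · exact (hc.1 v hv).1.trans (hc'.1 v hv).1.symm
    · exact (h1 v hv).1
  have hb : b = b' := by
    funext v
    by_cases hv : v.asIdeal ∣ 𝔫
    · exact (hc.1 v hv).2.trans (hc'.1 v hv).2.symm
    · exact (h1 v hv).2
  have hm : m = m' := by
    funext w d
    by_cases hd : 0 < d
    · exact h2 w d hd
    · exact (hc.2 w d (not_lt.1 hd)).trans (hc'.2 w d (not_lt.1 hd)).symm
  rw [ha, hb, hm]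

end Defs

/-! ## 2. The leaves -/

section Leaves

variable (K : Type) [Field K] [NumberField K]

/-- **WB.A1 = W0-RAW (T2 ADAPTER).**  From `T2.wBasis0_130` (helper130, `LT/T2/AdapterW.lean`,
UNCONDITIONAL): the index type is countable (`IsWBasis130.countable`): transport the family
along an injection into `ℕ`, `J₀` = its range; replace the data by the normalised data (`0` at
`v ∣ 𝔫` and at `d ≤ 0`): `IsEigFn` and `IsUnitOut` only see `v ∤ 𝔫`, `d > 0`
(`IsUnitaryOut S` for `S = {v ∣ 𝔫}`, a finite set). -/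
def W0RawC776 : Prop :=
  ∀ (μ : Measure (G K)) (F : Set (G K)) (r : G K) (𝔫 : Ideal (𝓞 K))
    (u : HeightOneSpectrum (𝓞 K)), 𝔫 ≠ ⊥ → T5.IsFrame μ F → T5.IsRayGen r → TotCplx K →
      ∃ (w₀ : ℕ → G K → ℂ) (J₀ : Set ℕ) (c₀ : ℕ → EigData K), IsW0Raw776 μ F r 𝔫 u w₀ J₀ c₀

/-- **WB.A2 = ORTH-CLS (T2 ADAPTER).**  Two joint eigenfunctions of level `0` whose data differ
at a place prime to `𝔫` or at a positive radius are orthogonal, if the data of the second one
are unitary.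
(`b ≠ b'` at `v`: `⟨ψ(· z), ψ'(· z)⟩ = ⟨ψ, ψ'⟩` (`TranslInvC`) and `|b'| = 1`.
`a ≠ a'`, `b = b'`: `T_v* = S_v⁻¹ T_v` (`T2.OpsAdj`) and `conj a' = a' conj b'`.
`m ≠ m'` at `(w, d)`: the sphere means are self-adjoint (`T2.OpsAdj`) and `m' d` is real.) -/
def OrthClsC776 : Prop :=
  ∀ (μ : Measure (G K)) (F : Set (G K)) (r : G K) (𝔫 : Ideal (𝓞 K))
    (u : HeightOneSpectrum (𝓞 K)), 𝔫 ≠ ⊥ → T5.IsFrame μ F → T5.IsRayGen r → TotCplx K →
    ∀ (ψ ψ' : G K → ℂ) (c c' : EigData K),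
      IsEigFn 𝔫 r 0 (fun _ => u) ψ c → IsEigFn 𝔫 r 0 (fun _ => u) ψ' c' →
      IsUnitOut 𝔫 c' → DiffOut776 𝔫 c c' → T5.innerD μ F ψ ψ' = 0

/-- **WB.A3 = CLASS-FIN** (the asset `classFinGen429` of helper429, row 2282): the class of an
eigen-datum lies in a finite dimensional space. -/
def ClassFinC776 : Prop :=
  TotCplx K → ∀ (𝔫 : Ideal (𝓞 K)) (r : G K) (l : ℕ) (o : ℕ → HeightOneSpectrum (𝓞 K))
    (C : EigData K), 𝔫 ≠ ⊥ → T5.IsRayGen r →
    ∃ W : Submodule ℂ (G K → ℂ), Module.Finite ℂ W ∧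
      ∀ ψ : G K → ℂ, IsEigFn 𝔫 r l o ψ C → ψ ∈ W

/-- **THE BASIS OF LEVEL 0** with finite classes which exhaust the eigenfunctions. -/
def W0BasisC776 : Prop :=
  ∀ (μ : Measure (G K)) (F : Set (G K)) (r : G K) (𝔫 : Ideal (𝓞 K))
    (u : HeightOneSpectrum (𝓞 K)), 𝔫 ≠ ⊥ → T5.IsFrame μ F → T5.IsRayGen r → TotCplx K →
      ∃ (w₀ : ℕ → G K → ℂ) (J₀ : Set ℕ) (c₀ : ℕ → EigData K), IsW0Basis776 μ F r 𝔫 u w₀ J₀ c₀

/-- **WB.A5 = W0-ASM (ASSEMBLY).**  `AbsExhaustC776` for `M = G K → ℂ`, `form = T5.innerD μ F`,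
`Vm` = the cusp functions (`InV`, a submodule by `WSubC`; form: `CuspFormC`), `A = EigData K`,
`Cls a x = IsEigFn 𝔫 r 0 (fun _ => u) x a`; finite dimension: `ClassFinC776`; orthogonality:
`OrthClsC776` and `diffOut_of_ne776`. -/
def W0AsmC776 : Prop :=
  W0RawC776 K → OrthClsC776 K → ClassFinC776 K → AbsExhaustC776 → CuspFormC K → WSubC K →
    W0BasisC776 K

/-- **WB.B1 = FIN-AVG-POS.**  The members of `Rep` are trivial at infinity
(`IsFinData.mem`), so they commute with the elements supported at the infinite places. -/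
def FinAvgPosC776 : Prop :=
  ∀ (𝔑 𝔑₀ : Ideal (𝓞 K)) (l : ℕ) (o : ℕ → HeightOneSpectrum (𝓞 K)) (Rep : Finset (G K)),
    IsFinData 𝔑 𝔑₀ l o Rep → ∀ ψ : G K → ℂ,
    (∀ (w : InfinitePlace K) (z : G K), IsArchPosScalar w z → ∀ g : G K, ψ (g * z) = ψ g) →
    ∀ (w : InfinitePlace K) (z : G K), IsArchPosScalar w z →
      ∀ g : G K, finAvg Rep ψ (g * z) = finAvg Rep ψ g

/-- **WB.B2 = FIN-AVG-HECKE.**  For EVERY finite place `v`: a member `h = i · u₀` of `Rep` is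
integral with integral inverse at `v`, so `k ↦ h⁻¹ k h` maps a Hecke coset system at `v` to a
Hecke coset system at `v` and a scalar uniformiser at `v` to a scalar uniformiser at `v`
(`IsHeckeEigenAt` is stated for ALL coset systems): `ψ(g k h) = ψ((g h)(h⁻¹ k h))`. -/
def FinAvgHeckeC776 : Prop :=
  ∀ (𝔑 𝔑₀ : Ideal (𝓞 K)) (l : ℕ) (o : ℕ → HeightOneSpectrum (𝓞 K)) (Rep : Finset (G K)),
    IsFinData 𝔑 𝔑₀ l o Rep → ∀ (ψ : G K → ℂ) (v : HeightOneSpectrum (𝓞 K)) (a b : ℂ),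
      IsHeckeEigenAt ψ v a b → IsHeckeEigenAt (finAvg Rep ψ) v a b

/-- **WB.B3 = FIN-AVG-MEAN.**  The members of `Rep` are trivial at infinity, so they commute
with the points `Y α β` of a sphere; the integrands are continuous (asset
`T2.H314.continuous_sphere314`, used in `LT/T7/H863/WSub.lean`), so the integral of the finite
sum is the sum of the integrals. -/
def FinAvgMeanC776 : Prop :=
  ∀ (𝔑 𝔑₀ : Ideal (𝓞 K)) (l : ℕ) (o : ℕ → HeightOneSpectrum (𝓞 K)) (Rep : Finset (G K)),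
    IsFinData 𝔑 𝔑₀ l o Rep → ∀ (ψ : G K → ℂ) (w : InfinitePlace K) (m : ℝ → ℂ),
      Continuous ψ → MeanEig ψ w m → MeanEig (finAvg Rep ψ) w m

/-- **THE PROJECTOR.** -/
def IwAvgC776 : Prop :=
  ∀ (μ : Measure (G K)) (F : Set (G K)) (r : G K) (𝔫 : Ideal (𝓞 K))
    (u : HeightOneSpectrum (𝓞 K)), 𝔫 ≠ ⊥ → T5.IsFrame μ F → T5.IsRayGen r →
      ∃ P : (G K → ℂ) →ₗ[ℂ] (G K → ℂ), IsIwAvg776 μ F r 𝔫 u P

/-- **WB.B4 = IW-AVG-ASM (ASSEMBLY).**  `Rep` from `FinDataC K 𝔫 𝔫 _ le_rfl 1 (fun _ => u)`,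
`P = finAvg Rep` (linear).  `eig`: `FinAvgCuspC` (cusp function, Iwahori invariant),
`FinAvgPosC776`, `FinAvgHeckeC776`, `FinAvgMeanC776`.  `fix`: `χ(g i u₀) = χ(g)`
(`IsFinData.mem`, `H193.isIwInv_iff`).  `inner`: `FinAvgOrthC` for the frame `⟨μ, F, r⟩` and
the form `CuspFormC` (`conj_symm`, `add_left`, `smul_left`). -/
def IwAvgAsmC776 : Prop :=
  T1.T1Out K → FinDataC K → FinAvgCuspC K → FinAvgOrthC K → TranslInvC K → FinAvgPosC776 K →
    FinAvgHeckeC776 K → FinAvgMeanC776 K → CuspFormC K → WSubC K → IwAvgC776 K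

/-- **WB.C2 = W-ASM (ASSEMBLY).**  `ProjSeqC776` for `M = G K → ℂ`, `form = T5.innerD μ F`,
`Vm` = the cusp functions, `Wm` = the invariant cusp functions (`InW`), `A = EigData K`,
`u = w₀`, `cl = c₀`, `P`; `P (w₀ j)` lies in its class space by `IsIwAvg776.eig`,
`isEigFn_zero_of776` and `IsW0Basis776.exhaust`.  The new sequence `w`, `J ⊆ J₀`, `c = c₀`:
`eig` by induction on the span (`WSubC.addC`, `smulC`; the zero function is in every class),
`exhaust` from `IsW0Basis776.exhaust` and the last conclusion of `ProjSeqC776`. -/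
def WAsmC776 : Prop :=
  W0BasisC776 K → IwAvgC776 K → ProjSeqC776 → CuspFormC K → WSubC K → WBasisC K

end Leaves

/-! ## 3. The top -/

section Top

variable {K : Type} [Field K] [NumberField K]

/-- **THE TOP of the node `WBasisC`.** -/
theorem wBasisC_of776 (hRaw : W0RawC776 K) (hOrth : OrthClsC776 K) (hFin : ClassFinC776 K)
    (hAbs : AbsExhaustC776) (hW0 : W0AsmC776 K) (hT1 : T1.T1Out K) (hFD : FinDataC K)
    (hFC : FinAvgCuspC K) (hFO : FinAvgOrthC K) (hTI : TranslInvC K) (hPos : FinAvgPosC776 K)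
    (hHe : FinAvgHeckeC776 K) (hMe : FinAvgMeanC776 K) (hIw : IwAvgAsmC776 K)
    (hPS : ProjSeqC776) (hW : WAsmC776 K) (hForm : CuspFormC K) (hSub : WSubC K) :
    WBasisC K :=
  hW (hW0 hRaw hOrth hFin hAbs hForm hSub)
    (hIw hT1 hFD hFC hFO hTI hPos hHe hMe hForm hSub) hPS hForm hSub

end Top

end Fermat.Agent.LT.T7.WB776

end
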